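/-
S18 / wave 4 (helper68): generic twisted circulants, facts (F1)-(F4) of report #1190
(backup file for leaf C4 = `exists_bound`).  Mathlib only.

`circ h t` is the matrix of multiplication by `∑ h_j T^j` on `R[T]/(T^m - t)` in the basis
`1, T, …, T^(m-1)`:  entry `(i,k)` is `h (i-k)` if `k ≤ i` and `t * h (m+i-k)` otherwise.

* (F1) `circ_eigen`        : `∑ i, y^i * circ h (y^m) i k = y^k * ∑ j, h j * y^j`
* (F2) `det_circ_pow`      : `det (circ h (y^m)) = (∑ j, h j * y^j) * det (row 0 := (y^k))`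
       `det_circ_pow_mem`  : the cofactor lies in any subring containing the `h j` and `y`
* (F3) `circ_map`, `det_circ_sub`, `det_circ_sub_mem` :
       `det (circ h u) - det (circ h t) ∈ (u - t) S`
* (F4) `det_circ_ne_zero`  : `X^m - C u` irreducible, `h ≠ 0`  ⟹  `det (circ h u) ≠ 0`
       `det_circ_ne_zero_of_prime` : the same from `m.Prime` and `u` not an `m`-th power
* extras: `det_circ_smul` (homogeneity of degree `m`), `det_circ_mem` (integrality)
-/
import Mathlib

set_option autoImplicit false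

open Matrix Polynomial

namespace Fermat.Agent.S18.H68

/-- `(i - k) mod m` on `Fin m`. -/
def shiftIdx {m : ℕ} (k i : Fin m) : Fin m :=
  if hki : k ≤ i then ⟨(i : ℕ) - k, by have := i.isLt; omega⟩
  else ⟨m + i - k, by
    have h1 := i.isLt
    have h2 := k.isLt
    have h3 : (i : ℕ) < k := by
      rw [not_le] at hki
      exact hki
    omega⟩

lemma shiftIdx_of_le {m : ℕ} {k i : Fin m} (h : k ≤ i) :
    (i : ℕ) = k + (shiftIdx k i : ℕ) := by
  have h' : (k : ℕ) ≤ i := h
  simp only [shiftIdx, dif_pos h]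
  omega

lemma shiftIdx_of_not_le {m : ℕ} {k i : Fin m} (h : ¬ k ≤ i) :
    (i : ℕ) + m = k + (shiftIdx k i : ℕ) := by
  have h' : (i : ℕ) < k := by
    rw [not_le] at h
    exact h
  have h2 := k.isLt
  simp only [shiftIdx, dif_neg h]
  omega

lemma shiftIdx_injective {m : ℕ} (k : Fin m) : Function.Injective (shiftIdx k) := by
  intro i i' hii
  have hv : (shiftIdx k i : ℕ) = (shiftIdx k i' : ℕ) := by rw [hii]
  have h1 := (shiftIdx k i).isLt
  have h2 := (shiftIdx k i').isLt
  have hi := i.isLt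
  have hi' := i'.isLt
  apply Fin.ext
  by_cases h : k ≤ i <;> by_cases h' : k ≤ i'
  · have e1 := shiftIdx_of_le h
    have e2 := shiftIdx_of_le h'
    omega
  · have e1 := shiftIdx_of_le h
    have e2 := shiftIdx_of_not_le h'
    omega
  · have e1 := shiftIdx_of_not_le h
    have e2 := shiftIdx_of_le h'
    omega
  · have e1 := shiftIdx_of_not_le h
    have e2 := shiftIdx_of_not_le h'
    omega

lemma shiftIdx_bijective {m : ℕ} (k : Fin m) : Function.Bijective (shiftIdx k) :=
  Finite.injective_iff_bijective.mp (shiftIdx_injective k)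

variable {R : Type*} [CommRing R]

/-- The twisted circulant of `h` with twist `t`. -/
def circ {m : ℕ} (h : Fin m → R) (t : R) : Matrix (Fin m) (Fin m) R :=
  Matrix.of fun i k => if k ≤ i then h (shiftIdx k i) else t * h (shiftIdx k i)

lemma circ_apply {m : ℕ} (h : Fin m → R) (t : R) (i k : Fin m) :
    circ h t i k = if k ≤ i then h (shiftIdx k i) else t * h (shiftIdx k i) := rfl

/-- **(F1)** The row vector `(y^i)` is a left eigenvector of `circ h (y^m)`. -/
theorem circ_eigen {m : ℕ} (h : Fin m → R) (y : R) (k : Fin m) :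
    ∑ i : Fin m, y ^ (i : ℕ) * circ h (y ^ m) i k =
      y ^ (k : ℕ) * ∑ j : Fin m, h j * y ^ (j : ℕ) := by
  rw [Finset.mul_sum]
  have hσ := (Equiv.ofBijective _ (shiftIdx_bijective k)).sum_comp
    (fun j : Fin m => y ^ (k : ℕ) * (h j * y ^ (j : ℕ)))
  rw [← hσ]
  refine Finset.sum_congr rfl fun i _ => ?_
  simp only [circ_apply, Equiv.ofBijective_apply]
  split_ifs with hki
  · have e := shiftIdx_of_le hki
    calc y ^ (i : ℕ) * h (shiftIdx k i)
        = y ^ ((k : ℕ) + (shiftIdx k i : ℕ)) * h (shiftIdx k i) := by rw [← e]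
      _ = y ^ (k : ℕ) * (h (shiftIdx k i) * y ^ (shiftIdx k i : ℕ)) := by
          rw [pow_add]; ring
  · have e := shiftIdx_of_not_le hki
    calc y ^ (i : ℕ) * (y ^ m * h (shiftIdx k i))
        = y ^ ((i : ℕ) + m) * h (shiftIdx k i) := by rw [pow_add]; ring
      _ = y ^ (k : ℕ) * (h (shiftIdx k i) * y ^ (shiftIdx k i : ℕ)) := by
          rw [e, pow_add]; ring

/-- **(F2)** `det (circ h (y^m))` is divisible by `∑ h_j y^j`, with an explicit cofactor. -/
theorem det_circ_pow {m : ℕ} [NeZero m] (h : Fin m → R) (y : R) :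
    (circ h (y ^ m)).det =
      (∑ j : Fin m, h j * y ^ (j : ℕ)) *
        ((circ h (y ^ m)).updateRow 0 fun k : Fin m => y ^ (k : ℕ)).det := by
  have h1 := Matrix.det_updateRow_sum (circ h (y ^ m)) 0 fun i : Fin m => y ^ (i : ℕ)
  have h2 : (∑ i : Fin m, y ^ (i : ℕ) • circ h (y ^ m) i) =
      (∑ j : Fin m, h j * y ^ (j : ℕ)) • fun k : Fin m => y ^ (k : ℕ) := by
    funext k
    simp only [Finset.sum_apply, Pi.smul_apply, smul_eq_mul]
    rw [circ_eigen, mul_comm]
  rw [h2, Matrix.det_updateRow_smul] at h1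
  simpa using h1.symm

/-- **(F3a)** `circ` commutes with ring homomorphisms. -/
theorem circ_map {S : Type*} [CommRing S] (φ : R →+* S) {m : ℕ} (h : Fin m → R) (t : R) :
    (circ h t).map φ = circ (fun j => φ (h j)) (φ t) := by
  ext i k
  simp only [Matrix.map_apply, circ_apply]
  split_ifs <;> simp

/-- **(F3b)** `det (circ h u) - det (circ h t)` is a multiple of `u - t`. -/
theorem det_circ_sub {m : ℕ} (h : Fin m → R) (t u : R) :
    ∃ e : R, (circ h u).det - (circ h t).det = (u - t) * e := by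
  have key : Ideal.Quotient.mk (Ideal.span {u - t}) ((circ h u).det - (circ h t).det) = 0 := by
    have hut : Ideal.Quotient.mk (Ideal.span {u - t}) u =
        Ideal.Quotient.mk (Ideal.span {u - t}) t := by
      rw [Ideal.Quotient.eq]
      exact Ideal.subset_span rfl
    rw [map_sub, RingHom.map_det, RingHom.map_det, RingHom.mapMatrix_apply,
      RingHom.mapMatrix_apply, circ_map, circ_map, hut, sub_self]
  rw [Ideal.Quotient.eq_zero_iff_mem, Ideal.mem_span_singleton'] at key
  obtain ⟨e, he⟩ := key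
  exact ⟨e, by rw [← he, mul_comm]⟩

/-- Homogeneity: `circ (c • h) t = c • circ h t`. -/
theorem circ_smul {m : ℕ} (c : R) (h : Fin m → R) (t : R) :
    circ (fun j => c * h j) t = c • circ h t := by
  ext i k
  simp only [circ_apply, Matrix.smul_apply, smul_eq_mul]
  split_ifs
  · rfl
  · ring

/-- Homogeneity of the determinant: `det (circ (c • h) t) = c ^ m * det (circ h t)`. -/
theorem det_circ_smul {m : ℕ} (c : R) (h : Fin m → R) (t : R) :
    (circ (fun j => c * h j) t).det = c ^ m * (circ h t).det := by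
  rw [circ_smul, Matrix.det_smul, Fintype.card_fin]

section Subring

variable {F : Type*} [CommRing F] (S : Subring F)

/-- `det (circ h t) ∈ S` if the `h j` and `t` are in the subring `S`. -/
theorem det_circ_mem {m : ℕ} (h : Fin m → F) (hh : ∀ j, h j ∈ S) {t : F} (ht : t ∈ S) :
    (circ h t).det ∈ S := by
  have hM : circ h t = (circ (fun j => (⟨h j, hh j⟩ : S)) ⟨t, ht⟩).map S.subtype := by
    rw [circ_map]
    rfl
  rw [hM, ← RingHom.mapMatrix_apply, ← RingHom.map_det]
  exact ((circ (fun j => (⟨h j, hh j⟩ : S)) ⟨t, ht⟩).det).2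

/-- **(F2), subring form.** -/
theorem det_circ_pow_mem {m : ℕ} [NeZero m] (h : Fin m → F) (hh : ∀ j, h j ∈ S) {y : F}
    (hy : y ∈ S) :
    ∃ e ∈ S, (circ h (y ^ m)).det = (∑ j : Fin m, h j * y ^ (j : ℕ)) * e := by
  refine ⟨_, ?_, det_circ_pow h y⟩
  let M' : Matrix (Fin m) (Fin m) S :=
    (circ (fun j => (⟨h j, hh j⟩ : S)) ((⟨y, hy⟩ : S) ^ m)).updateRow 0
      fun k : Fin m => (⟨y, hy⟩ : S) ^ (k : ℕ)
  have hM : ((circ h (y ^ m)).updateRow 0 fun k : Fin m => y ^ (k : ℕ)) =
      M'.map S.subtype := by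
    ext i k
    by_cases hi : i = 0
    · subst hi
      simp [M']
    · simp [M', Matrix.updateRow_ne hi, circ_apply]
      split_ifs <;> simp
  rw [hM, ← RingHom.mapMatrix_apply, ← RingHom.map_det]
  exact (M'.det).2

/-- **(F3), subring form.** -/
theorem det_circ_sub_mem {m : ℕ} (h : Fin m → F) (hh : ∀ j, h j ∈ S) {t u : F}
    (ht : t ∈ S) (hu : u ∈ S) :
    ∃ e ∈ S, (circ h u).det - (circ h t).det = (u - t) * e := by
  obtain ⟨e, he⟩ := det_circ_sub (fun j => (⟨h j, hh j⟩ : S)) ⟨t, ht⟩ ⟨u, hu⟩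
  refine ⟨e, e.2, ?_⟩
  have h2 := congrArg S.subtype he
  rw [map_sub, RingHom.map_det, RingHom.map_det, RingHom.mapMatrix_apply,
    RingHom.mapMatrix_apply, circ_map, circ_map, map_mul, map_sub] at h2
  exact h2

end Subring

section Field

variable {F : Type*} [Field F]

/-- The polynomial `∑ a_j X^j` attached to a vector. -/
noncomputable def vecPoly {m : ℕ} (a : Fin m → F) : F[X] := ∑ j : Fin m, C (a j) * X ^ (j : ℕ)

lemma vecPoly_degree_lt {m : ℕ} (a : Fin m → F) : (vecPoly a).degree < m :=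
  Polynomial.degree_sum_fin_lt a

lemma vecPoly_coeff {m : ℕ} (a : Fin m → F) (j : Fin m) : (vecPoly a).coeff j = a j := by
  unfold vecPoly
  rw [Polynomial.finsetSum_coeff]
  rw [Finset.sum_eq_single j]
  · simp
  · intro b _ hb
    rw [Polynomial.coeff_C_mul_X_pow, if_neg]
    intro hjb
    exact hb (Fin.ext hjb.symm)
  · intro hj
    exact absurd (Finset.mem_univ j) hj

lemma vecPoly_eq_zero {m : ℕ} {a : Fin m → F} (h : vecPoly a = 0) : a = 0 := by
  funext j
  rw [← vecPoly_coeff a j, h]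
  simp

/-- **(F4)** If `X^m - C u` is irreducible and `h ≠ 0` then `det (circ h u) ≠ 0`. -/
theorem det_circ_ne_zero {m : ℕ} (h : Fin m → F) (u : F)
    (hirr : Irreducible (X ^ m - C u : F[X])) (hh : h ≠ 0) : (circ h u).det ≠ 0 := by
  intro hdet
  obtain ⟨a, ha, hMa⟩ := Matrix.exists_mulVec_eq_zero_iff.mpr hdet
  have : Fact (Irreducible (X ^ m - C u : F[X])) := ⟨hirr⟩
  let y : AdjoinRoot (X ^ m - C u : F[X]) := AdjoinRoot.root _
  let φ : F →+* AdjoinRoot (X ^ m - C u : F[X]) := AdjoinRoot.of _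
  have hym : y ^ m = φ u := by
    have h0 : Polynomial.eval₂ (AdjoinRoot.of (X ^ m - C u : F[X]))
        (AdjoinRoot.root (X ^ m - C u : F[X])) (X ^ m - C u : F[X]) = 0 :=
      AdjoinRoot.eval₂_root _
    rw [Polynomial.eval₂_sub, Polynomial.eval₂_pow, Polynomial.eval₂_X,
      Polynomial.eval₂_C, sub_eq_zero] at h0
    exact h0
  have hm0 : m ≠ 0 := by
    rintro rfl
    exact ha (Subsingleton.elim _ _)
  have hfdeg : (X ^ m - C u : F[X]).degree = m :=
    Polynomial.degree_X_pow_sub_C (Nat.pos_of_ne_zero hm0) u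
  -- evaluation of `vecPoly` at the root
  have hmk : ∀ b : Fin m → F, AdjoinRoot.mk (X ^ m - C u : F[X]) (vecPoly b) =
      ∑ j : Fin m, φ (b j) * y ^ (j : ℕ) := by
    intro b
    simp only [vecPoly, map_sum, map_mul, map_pow, AdjoinRoot.mk_C, AdjoinRoot.mk_X]
    rfl
  -- the key identity `H(y) * A(y) = 0`
  have hprod : (∑ j : Fin m, φ (h j) * y ^ (j : ℕ)) * (∑ k : Fin m, φ (a k) * y ^ (k : ℕ)) =
      0 := by
    have e1 : ∀ k : Fin m, ∑ i : Fin m, y ^ (i : ℕ) * φ (circ h u i k) =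
        y ^ (k : ℕ) * ∑ j : Fin m, φ (h j) * y ^ (j : ℕ) := by
      intro k
      have := circ_eigen (fun j => φ (h j)) y k
      rw [hym, ← circ_map] at this
      simpa using this
    have e2 : ∑ i : Fin m, y ^ (i : ℕ) * φ ((circ h u).mulVec a i) = 0 := by
      rw [hMa]
      simp
    have e3 : ∑ i : Fin m, y ^ (i : ℕ) * φ ((circ h u).mulVec a i) =
        ∑ k : Fin m, (∑ i : Fin m, y ^ (i : ℕ) * φ (circ h u i k)) * φ (a k) := by
      simp only [Matrix.mulVec, dotProduct, map_sum, map_mul, Finset.mul_sum, Finset.sum_mul]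
      rw [Finset.sum_comm]
      refine Finset.sum_congr rfl fun k _ => Finset.sum_congr rfl fun i _ => ?_
      ring
    rw [e3] at e2
    rw [← e2, Finset.mul_sum]
    refine Finset.sum_congr rfl fun k _ => ?_
    rw [e1 k]
    ring
  rw [← hmk h, ← hmk a] at hprod
  rcases mul_eq_zero.mp hprod with h0 | h0
  · rw [AdjoinRoot.mk_eq_zero] at h0
    have := Polynomial.eq_zero_of_dvd_of_degree_lt h0 (by rw [hfdeg]; exact vecPoly_degree_lt h)
    exact hh (vecPoly_eq_zero this)
  · rw [AdjoinRoot.mk_eq_zero] at h0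
    have := Polynomial.eq_zero_of_dvd_of_degree_lt h0 (by rw [hfdeg]; exact vecPoly_degree_lt a)
    exact ha (vecPoly_eq_zero this)

/-- **(F4)** for a prime exponent: if `u` is not an `m`-th power then `det (circ h u) ≠ 0` for
`h ≠ 0`. -/
theorem det_circ_ne_zero_of_prime {m : ℕ} (hm : m.Prime) (h : Fin m → F) (u : F)
    (hu : ¬ ∃ w : F, u = w ^ m) (hh : h ≠ 0) : (circ h u).det ≠ 0 :=
  det_circ_ne_zero h u
    (X_pow_sub_C_irreducible_of_prime hm fun b hb => hu ⟨b, hb.symm⟩) hh

end Field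

end Fermat.Agent.S18.H68
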